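import Fermat.Agent.SerreTheorem.Main
import Mathlib.LinearAlgebra.RootSystem.GeckConstruction.Basis

/-!
# Serre presentations from bases, and Geck's construction

A Lie algebra with a basis in the sense of `LieAlgebra.Basis` is presented by its matrix. Applied to
Geck's construction, this gives the existence half of Serre's theorem for irreducible root systems.
-/

set_option autoImplicit false
set_option linter.unusedSectionVars false

noncomputable section

namespace FA.SerreTheorem

open LieModule Module LieAlgebra LieAlgebra.IsKilling FA.HighestWeight FA.WeylChar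

attribute [local instance 100] LieRing.ofAssociativeRing

section OfBasis

variable {K : Type*} {L : Type*} {ι : Type*} [Fintype ι] [DecidableEq ι] [Field K] [CharZero K]
  [LieRing L] [LieAlgebra K L] [FiniteDimensional K L] [IsKilling K L] {H : LieSubalgebra K L}
  [H.IsCartanSubalgebra] [IsTriangularizable K H L] (B : LieAlgebra.Basis ι H)

/-- The generators of a basis as triples through its simple roots. -/
def basisTriples : SimpleTriples B.base where
  e i := B.e (B.baseSupportEquiv.symm i)
  f i := B.f (B.baseSupportEquiv.symm i)
  triple i := by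
    obtain ⟨j, rfl⟩ := B.baseSupportEquiv.surjective i
    have h : (crt (B.baseSupportEquiv j).1 : L) = B.h j :=
      congrArg Subtype.val (B.coroot_eq_h' j)
    rw [Equiv.symm_apply_apply, h]
    exact B.sl2 j
  e_mem i := by
    obtain ⟨j, rfl⟩ := B.baseSupportEquiv.surjective i
    rw [Equiv.symm_apply_apply]
    refine (mem_genWeightSpace _ _ _).2 fun x => ⟨1, ?_⟩
    rw [pow_one, LinearMap.sub_apply, toEnd_apply_apply, LinearMap.smul_apply,
      Module.End.one_apply]
    exact sub_eq_zero.2 (B.baseSupp_apply_smul_e j x).symm
  f_mem i := by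
    obtain ⟨j, rfl⟩ := B.baseSupportEquiv.surjective i
    rw [Equiv.symm_apply_apply]
    refine (mem_genWeightSpace _ _ _).2 fun x => ⟨1, ?_⟩
    rw [pow_one, LinearMap.sub_apply, toEnd_apply_apply, LinearMap.smul_apply,
      Module.End.one_apply]
    have h : ((negRoot (B.baseSupportEquiv j).1).1 : H → K) x = -(B.baseSupp j x) := rfl
    rw [h, neg_smul, B.baseSupp_apply_smul_f j x, neg_neg, sub_self]

variable [DecidableEq B.base.support]

/-- A Lie algebra with a basis is presented by the transpose of the matrix of the basis. -/
def basisEquiv : SAlg K B.A.transpose ≃ₗ⁅K⁆ L :=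
  (sreindex K B.baseSupportEquiv (C := B.A.transpose) (C' := sMat B.base) fun i j => by
    show B.base.cartanMatrix (B.baseSupportEquiv j) (B.baseSupportEquiv i) = B.A j i
    rw [B.cartanMatrix_base_eq, Matrix.reindex_apply, Matrix.submatrix_apply,
      Equiv.symm_apply_apply, Equiv.symm_apply_apply]).trans (serreEquiv B.base (basisTriples B))

lemma basisEquiv_gen (i : ι) :
    basisEquiv B (gE K B.A.transpose i) = B.e i ∧ basisEquiv B (gF K B.A.transpose i) = B.f i ∧
      basisEquiv B (gH K B.A.transpose i) = B.h i := by
  refine ⟨?_, ?_, ?_⟩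
  · rw [basisEquiv, LieEquiv.trans_apply, sreindex_gE, serreEquiv_apply, toL_gE]
    exact congrArg B.e (B.baseSupportEquiv.symm_apply_apply i)
  · rw [basisEquiv, LieEquiv.trans_apply, sreindex_gF, serreEquiv_apply, toL_gF]
    exact congrArg B.f (B.baseSupportEquiv.symm_apply_apply i)
  · rw [basisEquiv, LieEquiv.trans_apply, sreindex_gH, serreEquiv_apply, toL_gH]
    exact congrArg Subtype.val (B.coroot_eq_h' i)

end OfBasis

section Geck

open RootPairing

variable {ι K M N : Type*} [Finite ι] [DecidableEq ι] [Field K] [CharZero K] [IsAlgClosed K]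
  [AddCommGroup M] [Module K M] [AddCommGroup N] [Module K N]
  {P : RootPairing ι K M N} [P.IsReduced] [P.IsCrystallographic] [P.IsIrreducible] [P.IsRootSystem]
  (b : P.Base)

/-- Geck's algebra satisfies Serre's presentation. -/
theorem exists_geck_equiv [Fintype ι] :
    ∃ e : SAlg K b.cartanMatrix.transpose ≃ₗ⁅K⁆ GeckConstruction.lieAlgebra b,
      ∀ i, e (gE K _ i) = (GeckConstruction.basis b).e i ∧
        e (gF K _ i) = (GeckConstruction.basis b).f i ∧
        e (gH K _ i) = (GeckConstruction.basis b).h i := by
  classical
  exact ⟨basisEquiv (GeckConstruction.basis b), basisEquiv_gen (GeckConstruction.basis b)⟩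

/-- The algebra presented by the Cartan matrix of an irreducible root system is finite-dimensional
with trivial radical. -/
theorem presented_semisimple :
    FiniteDimensional K (SAlg K b.cartanMatrix.transpose) ∧
      LieAlgebra.IsKilling K (SAlg K b.cartanMatrix.transpose) ∧
      LieAlgebra.HasTrivialRadical K (SAlg K b.cartanMatrix.transpose) := by
  have := Fintype.ofFinite ι
  obtain ⟨e, -⟩ := exists_geck_equiv b
  have : FiniteDimensional K (SAlg K b.cartanMatrix.transpose) :=
    e.symm.toLinearEquiv.finiteDimensional
  have : LieAlgebra.IsKilling K (SAlg K b.cartanMatrix.transpose) := e.symm.isKilling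
  exact ⟨inferInstance, inferInstance, inferInstance⟩

end Geck

end FA.SerreTheorem
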