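import Fermat.Agent.SerreTheorem.Presented
import Fermat.Agent.WeylChar.Weights

/-!
# Chevalley generators of a split semisimple Lie algebra

The triples of the simple roots satisfy the Serre relations and generate the Lie algebra.
-/

set_option autoImplicit false
set_option linter.unusedSectionVars false

noncomputable section

namespace FA.SerreTheorem

open LieModule Module LieAlgebra LieAlgebra.IsKilling FA.HighestWeight FA.WeylChar

attribute [local instance 100] LieRing.ofAssociativeRing

universe u v

variable {K : Type u} {L : Type v} [Field K] [CharZero K] [LieRing L] [LieAlgebra K L]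
  [IsKilling K L] [FiniteDimensional K L]
  {H : LieSubalgebra K L} [H.IsCartanSubalgebra] [IsTriangularizable K H L]

/-- The partner of `rootVec α` in an `sl₂` triple. -/
def coVec (α : H.root) : L := (exists_triple α).choose_spec.choose

lemma isTriple (α : H.root) : IsSl2Triple (crt α : L) (rootVec α) (coVec α) :=
  (exists_triple α).choose_spec.choose_spec.1

lemma coVec_mem (α : H.root) : coVec α ∈ rootSpace H (negRoot α).1 :=
  (exists_triple α).choose_spec.choose_spec.2.2

lemma eq_of_rt_eq {α β : H.root} (h : rt α = rt β) : α = β :=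
  (rootSystem H).root.injective h

lemma mem_rootSpace_of_hasWeight {μ : Dual K H} {x : L} (hx : HasWeight μ x) :
    x ∈ rootSpace H (μ : H → K) :=
  (mem_genWeightSpace _ _ _).2 fun h => ⟨1, by
    rw [pow_one, LinearMap.sub_apply, toEnd_apply_apply, LinearMap.smul_apply,
      Module.End.one_apply, show ⁅h, x⁆ = ⁅(h : L), x⁆ from rfl, hx h, sub_self]⟩

lemma hasWeight_of_mem_rootSpace {α : H.root} {x : L} (hx : x ∈ rootSpace H α.1) :
    HasWeight (rt α) x := fun h => lie_root_vector hx h

lemma lie_cartan_cartan (x y : H) : ⁅(x : L), (y : L)⁆ = 0 :=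
  congrArg Subtype.val (trivial_lie_zero H H x y)

variable (b : (rootSystem H).Base)

/-- A choice of `sl₂` triples through the simple roots of a base. -/
structure SimpleTriples where
  /-- The vectors of the simple roots. -/
  e : b.support → L
  /-- The vectors of the opposite roots. -/
  f : b.support → L
  triple : ∀ i, IsSl2Triple (crt i.1 : L) (e i) (f i)
  e_mem : ∀ i, e i ∈ rootSpace H i.1.1
  f_mem : ∀ i, f i ∈ rootSpace H (negRoot i.1).1

/-- The chosen triples. -/
def stdTriples : SimpleTriples b :=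
  ⟨fun i => rootVec i.1, fun i => coVec i.1, fun i => isTriple i.1, fun i => rootVec_mem i.1,
    fun i => coVec_mem i.1⟩

variable (T : SimpleTriples b)

/-- The transpose of the Cartan matrix, which is the matrix of the Serre relations. -/
abbrev sMat : Matrix b.support b.support ℤ := b.cartanMatrix.transpose

lemma rt_crt_eq_sMat (i j : b.support) : rt j.1 (crt i.1) = ((sMat b i j : ℤ) : K) := by
  rw [show sMat b i j = b.cartanMatrix j i from rfl]
  exact ((rootSystem H).algebraMap_pairingIn ℤ j.1 i.1).symm.trans rfl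

lemma sMat_diag (i : b.support) : sMat b i i = 2 := b.cartanMatrix_apply_same i

lemma sMat_nonpos {i j : b.support} (h : i ≠ j) : sMat b i j ≤ 0 :=
  b.cartanMatrix_le_zero_of_ne j i h.symm

/-- There is no root vector of weight `β + (n + 1) α` when `α`, `β` have the same height and
`β (α^∨) = - n`. -/
lemma eq_zero_of_string {α β : H.root} (hh : b.height α = b.height β) {n : ℕ}
    (hn : rt β (crt α) = -(n : K)) {y : L}
    (hy : HasWeight (rt β + ((n + 1 : ℕ) : K) • rt α) y) : y = 0 := by
  rcases rootSpace_cases (mem_rootSpace_of_hasWeight hy) with h | ⟨h0, -⟩ | ⟨γ, hγ⟩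
  · exact h
  · exfalso
    have := congr_fun h0 (heightElt b)
    rw [LinearMap.add_apply, LinearMap.smul_apply, apply_heightElt, apply_heightElt, hh,
      smul_eq_mul, Pi.zero_apply, ← one_add_mul, mul_eq_zero, Int.cast_eq_zero] at this
    exact this.elim (fun h => by
      rw [← Nat.cast_one, ← Nat.cast_add, Nat.cast_eq_zero] at h; omega) (b.height_ne_zero β)
  · exfalso
    have hr : rt γ = rt β + ((n + 1 : ℕ) : K) • rt α := LinearMap.ext fun z => congr_fun hγ z
    refine b.height_ne_zero ((rootSystem H).reflectionPerm α γ) ?_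
    rw [b.height_sub (i := β) (j := α) (by
      change rt ((rootSystem H).reflectionPerm α γ) = rt β - rt α
      rw [← refl'_rt, refl', hr, LinearMap.add_apply, LinearMap.smul_apply, hn, rt_crt_self,
        smul_eq_mul, Nat.cast_succ]
      module), hh, sub_self]

/-- The Serre relations in `L`. -/
theorem rel_L : SerreRel (K := K) (sMat b) (fun i => (crt i.1 : L)) T.e T.f where
  hh i j := lie_cartan_cartan _ _
  ef i := (T.triple i).lie_e_f
  ef_ne i j hij := by
    rcases rootSpace_cases (lie_mem_rootSpace (T.e_mem i) (T.f_mem j)) with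
      h | ⟨h0, -⟩ | ⟨γ, hγ⟩
    · exact h
    · exfalso
      refine hij (Subtype.ext (eq_of_rt_eq (LinearMap.ext fun z => ?_)))
      have := congr_fun h0 z
      rwa [Pi.add_apply, Pi.zero_apply,
        show ((negRoot j.1).1 : H → K) z = -(j.1.1 z) from rfl, add_neg_eq_zero] at this
    · exfalso
      refine b.height_ne_zero γ ?_
      rw [b.height_sub (i := i.1) (j := j.1) (LinearMap.ext fun z => ?_),
        b.height_one_of_mem_support i.2, b.height_one_of_mem_support j.2, sub_self]
      exact (congr_fun hγ z).trans (sub_eq_add_neg _ _).symm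
  he i j := by
    show ⁅(crt i.1 : L), T.e j⁆ = sMat b i j • T.e j
    rw [lie_root_vector (T.e_mem _), rt_crt_eq_sMat, Int.cast_smul_eq_zsmul]
  hf i j := by
    show ⁅(crt i.1 : L), T.f j⁆ = -(sMat b i j • T.f j)
    rw [lie_root_vector (T.f_mem _), rt_negRoot, LinearMap.neg_apply, rt_crt_eq_sMat, neg_smul,
      Int.cast_smul_eq_zsmul]
  adE i j := by
    rcases eq_or_ne i j with rfl | hij
    · rw [lie_self, map_zero]
    rw [← toEnd_pow_succ_apply']
    refine eq_zero_of_string b (α := i.1) (β := j.1) ?_ (n := (-sMat b i j).toNat) ?_ ?_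
    · rw [b.height_one_of_mem_support i.2, b.height_one_of_mem_support j.2]
    · rw [rt_crt_eq_sMat, ← Int.cast_natCast, Int.toNat_of_nonneg (by have := sMat_nonpos b hij; omega)]
      push_cast
      rw [neg_neg]
    · exact (hasWeight_of_mem_rootSpace (T.e_mem j)).pow (T.e_mem i) _
  adF i j := by
    rcases eq_or_ne i j with rfl | hij
    · rw [lie_self, map_zero]
    rw [← toEnd_pow_succ_apply']
    refine eq_zero_of_string b (α := negRoot i.1) (β := negRoot j.1) ?_
      (n := (-sMat b i j).toNat) ?_ ?_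
    · rw [height_negRoot, height_negRoot, b.height_one_of_mem_support i.2,
        b.height_one_of_mem_support j.2]
    · rw [crt_negRoot, map_neg, rt_negRoot, LinearMap.neg_apply, neg_neg, rt_crt_eq_sMat,
        ← Int.cast_natCast, Int.toNat_of_nonneg (by have := sMat_nonpos b hij; omega)]
      push_cast
      rw [neg_neg]
    · exact (hasWeight_of_mem_rootSpace (T.f_mem j)).pow (T.f_mem i) _

section

variable [DecidableEq b.support]

/-- The homomorphism from the presented algebra. -/
def toL : SAlg K (sMat b) →ₗ⁅K⁆ L := slift (rel_L b T)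

lemma toL_gH (i : b.support) : toL b T (gH K (sMat b) i) = (crt i.1 : L) := slift_gH _ i

lemma toL_gE (i : b.support) : toL b T (gE K (sMat b) i) = T.e i := slift_gE _ i

lemma toL_gF (i : b.support) : toL b T (gF K (sMat b) i) = T.f i := slift_gF _ i

end

variable {b}

/-- A subalgebra containing the simple triples is stable under simple reflections of root
vectors. -/
lemma rootVec_reflect_mem (R : LieSubalgebra K L) {j : H.root} {ej fj : L}
    (t : IsSl2Triple (crt j : L) ej fj) (hem : ej ∈ rootSpace H j.1)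
    (hfm : fj ∈ rootSpace H (negRoot j).1) (hje : ej ∈ R) (hjf : fj ∈ R) {γ : H.root} (hγ : rootVec γ ∈ R) :
    rootVec ((rootSystem H).reflectionPerm j γ) ∈ R := by
  obtain ⟨z, hz⟩ : ∃ z : ℤ, rt γ (crt j) = (z : K) :=
    ⟨(rootSystem H).pairingIn ℤ γ j, ((rootSystem H).algebraMap_pairingIn ℤ γ j).symm.trans rfl⟩
  have hperm : rt ((rootSystem H).reflectionPerm j γ) = rt γ - (z : K) • rt j := by
    rw [← refl'_rt, refl', hz]
  have hpow : ∀ (u : L), u ∈ R → ∀ m : ℕ, (toEnd K L L u ^ m) (rootVec γ) ∈ R := by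
    intro u hu m
    induction m with
    | zero => simpa using hγ
    | succ m ih => rw [toEnd_pow_succ_apply]; exact R.lie_mem hu ih
  have main : ∀ (h e f : L) (α : H.root) (m : ℕ), IsSl2Triple h e f → f ∈ R →
      f ∈ rootSpace H α.1 → ⁅h, rootVec γ⁆ = (m : K) • rootVec γ →
      rt γ + (m : K) • rt α = rt ((rootSystem H).reflectionPerm j γ) →
      rootVec ((rootSystem H).reflectionPerm j γ) ∈ R := by
    intro h e f α m t hfR hf hh hw
    obtain ⟨N, hN⟩ := exists_pow_e_eq_zero (K := K) (M := L) t
    have hy0 : (toEnd K L L f ^ m) (rootVec γ) ≠ 0 := fun h0 => rootVec_ne_zero γ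
      (eq_zero_of_pow_f_eq_zero t N m _ hh (by rw [hN, LinearMap.zero_apply]) h0)
    have hy := (hasWeight_of_mem_rootSpace (rootVec_mem γ)).pow hf m
    rw [hw] at hy
    generalize (rootSystem H).reflectionPerm j γ = δ at hy ⊢
    have hy' : (toEnd K L L f ^ m) (rootVec γ) ∈ rootSpace H δ.1 := by
      rw [← coe_rt]; exact mem_rootSpace_of_hasWeight hy
    obtain ⟨c, hc⟩ := rootSpace_smul_of_mem hy' hy0 (rootVec_mem δ)
    rw [hc]
    exact R.smul_mem c (hpow f hfR m)
  obtain ⟨m, rfl | rfl⟩ := Int.eq_nat_or_neg z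
  · refine main _ _ _ (negRoot j) m t hjf hfm ?_ ?_
    · rw [lie_root_vector (rootVec_mem γ), hz, Int.cast_natCast]
    · rw [hperm, rt_negRoot, Int.cast_natCast, smul_neg, sub_eq_add_neg]
  · refine main _ _ _ j m t.symm hje hem ?_ ?_
    · rw [neg_lie, lie_root_vector (rootVec_mem γ), hz, Int.cast_neg, Int.cast_natCast, neg_smul,
        neg_neg]
    · rw [hperm, Int.cast_neg, Int.cast_natCast]
      module

variable (b)

/-- A subalgebra containing the simple triples is everything. -/
theorem eq_top_of_simple_mem (R : LieSubalgebra K L) (he : ∀ i : b.support, T.e i ∈ R)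
    (hf : ∀ i : b.support, T.f i ∈ R) : R = ⊤ := by
  have hneg : ∀ α : H.root, (rootSystem H).reflectionPerm α α = negRoot α := fun α => by
    refine eq_of_rt_eq ?_
    rw [← refl'_rt, refl'_rt_self, rt_negRoot]
  have hall : ∀ α : H.root, rootVec α ∈ R ∧ rootVec (negRoot α) ∈ R := by
    intro α
    refine b.induction_reflect (p := fun β => rootVec β ∈ R ∧ rootVec (negRoot β) ∈ R) α
      (fun β hβ => ?_) (fun β hβ => ?_) (fun β j hβ hj => ?_)
    · rw [hneg, negRoot_negRoot]
      exact hβ.symm
    · obtain ⟨d, hd⟩ := rootSpace_smul_of_mem (T.e_mem ⟨β, hβ⟩) (T.triple ⟨β, hβ⟩).e_ne_zero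
        (rootVec_mem β)
      refine ⟨hd ▸ R.smul_mem d (he ⟨β, hβ⟩), ?_⟩
      obtain ⟨c, hc⟩ := rootSpace_smul_of_mem (T.f_mem ⟨β, hβ⟩) (T.triple ⟨β, hβ⟩).f_ne_zero
        (rootVec_mem (negRoot β))
      rw [hc]
      exact R.smul_mem c (hf ⟨β, hβ⟩)
    · refine ⟨rootVec_reflect_mem R (T.triple ⟨j, hj⟩) (T.e_mem ⟨j, hj⟩) (T.f_mem ⟨j, hj⟩) (he ⟨j, hj⟩)
        (hf ⟨j, hj⟩) hβ.1, ?_⟩
      rw [show negRoot ((rootSystem H).reflectionPerm j β) =
          (rootSystem H).reflectionPerm j (negRoot β) from eq_of_rt_eq (by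
        rw [rt_negRoot, ← refl'_rt, ← refl'_rt, rt_negRoot, refl', refl', LinearMap.neg_apply]
        module)]
      exact rootVec_reflect_mem R (T.triple ⟨j, hj⟩) (T.e_mem ⟨j, hj⟩) (T.f_mem ⟨j, hj⟩) (he ⟨j, hj⟩)
        (hf ⟨j, hj⟩) hβ.2
  have hcrt : ∀ i : b.support, (crt i.1 : L) ∈ R := fun i => by
    rw [← (T.triple i).lie_e_f]; exact R.lie_mem (he i) (hf i)
  have h : R.toSubmodule = ⊤ := by
    refine eq_top_of_cartan_of_rootSpace (H := H) _ (fun x => ?_) (fun α x hx => ?_)
    · have hx : x ∈ Submodule.span K (crt '' (b.support : Set H.root)) := by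
        rw [span_crt_support b]; trivial
      induction hx using Submodule.span_induction with
      | mem x hx =>
        obtain ⟨α, hα, rfl⟩ := hx
        exact hcrt ⟨α, hα⟩
      | zero => exact R.zero_mem
      | add x y _ _ hx hy => exact R.add_mem hx hy
      | smul c x _ hx => exact R.smul_mem c hx
    · obtain ⟨c, rfl⟩ := exists_smul_rootVec hx
      exact R.smul_mem c (hall α).1
  exact LieSubalgebra.toSubmodule_injective (h.trans LieSubalgebra.top_toSubmodule.symm)

lemma toL_surjective [DecidableEq b.support] : Function.Surjective (toL b T) := by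
  have h := eq_top_of_simple_mem b T (toL b T).range
    (fun i => (LieHom.mem_range _ _).2 ⟨_, toL_gE b T i⟩)
    (fun i => (LieHom.mem_range _ _).2 ⟨_, toL_gF b T i⟩)
  intro y
  exact (LieHom.mem_range _ _).1 (h ▸ LieSubalgebra.mem_top y)

lemma linearIndependent_crt :
    LinearIndependent K fun i : b.support => (crt i.1 : L) :=
  LinearIndependent.map' (b.linearIndepOn_coroot :) H.toSubmodule.subtype (Submodule.ker_subtype _)

/-- Chevalley generators: a basis in the sense of `LieAlgebra.Basis`. -/
def chevalley : LieAlgebra.Basis b.support H where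
  A := b.cartanMatrix
  h i := crt i.1
  e := T.e
  f := T.f
  cartan_eq_lieSpan := by
    refine le_antisymm (fun x hx => ?_) (LieSubalgebra.lieSpan_le.2 ?_)
    · have h : (⟨x, hx⟩ : H) ∈ Submodule.span K (crt '' (b.support : Set H.root)) := by
        rw [span_crt_support b]; trivial
      have h2 := Submodule.mem_map_of_mem (f := H.toSubmodule.subtype) h
      rw [Submodule.map_span] at h2
      refine LieSubalgebra.submodule_span_le_lieSpan (Submodule.span_mono ?_ h2)
      rintro _ ⟨_, ⟨α, hα, rfl⟩, rfl⟩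
      exact ⟨⟨α, hα⟩, rfl⟩
    · rintro _ ⟨i, rfl⟩
      exact (crt i.1).2
  span_ef := eq_top_of_simple_mem b T _
    (fun i => LieSubalgebra.subset_lieSpan (Or.inl ⟨i, rfl⟩))
    (fun i => LieSubalgebra.subset_lieSpan (Or.inr ⟨i, rfl⟩))
  linInd := linearIndependent_crt b
  nondegen := b.cartanMatrix_nondegenerate
  sl2 := T.triple
  lie_h_h := (rel_L b T).hh
  lie_h_e i j := (rel_L b T).he j i
  lie_h_f i j := ((rel_L b T).hf j i).trans (neg_smul _ _).symm
  lie_e_f_ne := (rel_L b T).ef_ne

end FA.SerreTheorem
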