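import Fermat.Agent.SerreTheorem.Generators

/-!
# Serre's theorem

The homomorphism from the algebra of the Serre relations onto a split semisimple Lie algebra is
bijective, and so the Cartan matrix determines the Lie algebra.
-/

set_option autoImplicit false
set_option linter.unusedSectionVars false

noncomputable section

namespace FA.SerreTheorem

open LieModule Module LieAlgebra LieAlgebra.IsKilling FA.HighestWeight FA.WeylChar

attribute [local instance 100] LieRing.ofAssociativeRing

universe u v

variable {K : Type u} {L : Type v} [Field K] [CharZero K] [LieRing L] [LieAlgebra K L]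
  [IsKilling K L] [FiniteDimensional K L]
  {H : LieSubalgebra K L} [H.IsCartanSubalgebra] [IsTriangularizable K H L]
  (b : (rootSystem H).Base)

/-- A joint eigenvector of a family of operators indexed by the simple roots. -/
def Eig {V : Type*} [AddCommGroup V] [Module K V] (D : b.support → Module.End K V) (μ : Dual K H)
    (x : V) : Prop := ∀ i, D i x = μ (crt i.1) • x

/-- Separation of joint eigenvectors of distinct weights. -/
lemma mem_span_of_eig {V : Type*} [AddCommGroup V] [Module K V] (D : b.support → Module.End K V)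
    {κ : Type*} (v : κ → V) (w : κ → Dual K H) (hv : ∀ k, Eig b D (w k) (v k)) {μ : Dual K H}
    {x : V} (hx : Eig b D μ x) (hspan : x ∈ Submodule.span K (Set.range v)) :
    x ∈ Submodule.span K (v '' {k | w k = μ}) := by
  classical
  obtain ⟨c, hc⟩ := Finsupp.mem_span_range_iff_exists_finsupp.1 hspan
  suffices ∀ (s : Finset κ) (c : κ → K), x = ∑ k ∈ s, c k • v k →
      x ∈ Submodule.span K (v '' {k | w k = μ}) from this c.support c hc.symm
  clear hc c hspan
  intro s
  induction s using Finset.strongInduction with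
  | H s ih =>
    intro c hc
    by_cases hall : ∀ k ∈ s, w k = μ
    · rw [hc]
      exact Submodule.sum_mem _ fun k hk =>
        Submodule.smul_mem _ _ (Submodule.subset_span ⟨k, hall k hk, rfl⟩)
    push Not at hall
    obtain ⟨k₀, hk₀, hne⟩ := hall
    obtain ⟨i, hi⟩ : ∃ i : b.support, w k₀ (crt i.1) - μ (crt i.1) ≠ 0 := by
      by_contra hcon
      push Not at hcon
      exact hne (eq_of_forall_crt b fun α hα => sub_eq_zero.1 (hcon ⟨α, hα⟩))
    have h0 : ∑ k ∈ s, (c k * (w k (crt i.1) - μ (crt i.1))) • v k = 0 := by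
      have h1 : D i x - μ (crt i.1) • x = 0 := by rw [hx i, sub_self]
      rw [hc, map_sum, Finset.smul_sum, ← Finset.sum_sub_distrib] at h1
      rw [← h1]
      refine Finset.sum_congr rfl fun k _ => ?_
      rw [map_smul, hv k i]
      module
    refine ih (s.erase k₀) (Finset.erase_ssubset hk₀)
      (fun k => c k * (1 - (w k (crt i.1) - μ (crt i.1)) / (w k₀ (crt i.1) - μ (crt i.1)))) ?_
    set a := w k₀ (crt i.1) - μ (crt i.1) with ha
    rw [← Finset.add_sum_erase _ _ hk₀] at h0 hc
    have h2 : c k₀ • v k₀ =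
        -(a⁻¹ • ∑ k ∈ s.erase k₀, (c k * (w k (crt i.1) - μ (crt i.1))) • v k) := by
      rw [← smul_neg, ← eq_neg_of_add_eq_zero_left h0, smul_smul, ← ha, mul_comm (c k₀) a,
        ← mul_assoc, inv_mul_cancel₀ hi, one_mul]
    rw [hc, h2, Finset.smul_sum, ← Finset.sum_neg_distrib, ← Finset.sum_add_distrib]
    refine Finset.sum_congr rfl fun k _ => ?_
    rw [smul_smul, ← neg_smul, ← add_smul]
    congr 1
    field_simp
    ring

/-- A family of weight vectors of weights other than `μ` spans no nonzero vector of weight `μ`. -/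
lemma eq_zero_of_eig {V : Type*} [AddCommGroup V] [Module K V] (D : b.support → Module.End K V)
    {κ : Type*} (v : κ → V) (w : κ → Dual K H) (hv : ∀ k, Eig b D (w k) (v k)) {μ : Dual K H}
    {x : V} (hx : Eig b D μ x) (hspan : x ∈ Submodule.span K (Set.range v))
    (hw : ∀ k, w k ≠ μ) : x = 0 := by
  have h := mem_span_of_eig b D v w hv hx hspan
  rw [show {k | w k = μ} = ∅ from Set.eq_empty_of_forall_notMem hw, Set.image_empty,
    Submodule.span_empty, Submodule.mem_bot] at h
  exact h

/-- The weight of a word. -/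
def wordWt (l : List b.support) : Dual K H := (l.map fun i => rt i.1).sum

lemma wordWt_cons (i : b.support) (l : List b.support) :
    wordWt b (i :: l) = rt i.1 + wordWt b l := by
  simp [wordWt]

lemma wordWt_crt (l : List b.support) (k : b.support) :
    wordWt b l (crt k.1) = ((l.map (sMat b k)).sum : ℤ) := by
  induction l with
  | nil => simp [wordWt]
  | cons i l ih =>
    rw [wordWt_cons, LinearMap.add_apply, ih, rt_crt_eq_sMat, List.map_cons, List.sum_cons,
      Int.cast_add]

lemma wordWt_heightElt (l : List b.support) :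
    wordWt b l (heightElt b) = (l.length : K) := by
  induction l with
  | nil => simp [wordWt]
  | cons i l ih =>
    rw [wordWt_cons, LinearMap.add_apply, ih, apply_heightElt_of_mem b i.2, List.length_cons,
      Nat.cast_succ, add_comm]

lemma wordWt_mem_posCone (l : List b.support) : wordWt b l ∈ posCone b := by
  induction l with
  | nil => exact zero_mem _
  | cons i l ih =>
    rw [wordWt_cons]
    exact add_mem (rt_mem_posCone b (RootPairing.Base.isPos_of_mem_support i.2)) ih

/-- All letters of two words are `i` when their weights add up to a multiple of `i`. -/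
lemma eq_of_wordWt_add {i : b.support} {q p : List b.support} {m : K}
    (h : wordWt b q + wordWt b p = m • rt i.1) {j : b.support} (hj : j ∈ q) : j = i := by
  classical
  by_contra hne
  have hcoord : ∀ l : List b.support,
      b.toWeightBasis.coord j (wordWt b l) = (l.count j : K) := fun l => by
    induction l with
    | nil => simp [wordWt]
    | cons a l ih =>
      rw [wordWt_cons, map_add, ih, List.count_cons,
        show rt a.1 = b.toWeightBasis a from (b.toWeightBasis_apply a).symm, Basis.coord_apply,
        Basis.repr_self, Finsupp.single_apply]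
      by_cases hja : a = j
      · simp [hja, add_comm]
      · simp [hja]
  have h2 := congrArg (b.toWeightBasis.coord j) h
  rw [map_add, hcoord, hcoord, map_smul,
    show rt i.1 = b.toWeightBasis i from (b.toWeightBasis_apply i).symm, Basis.coord_apply,
    Basis.repr_self, Finsupp.single_apply, if_neg (Ne.symm hne), smul_zero, ← Nat.cast_add,
    Nat.cast_eq_zero] at h2
  have := List.count_pos_iff.2 hj
  omega

variable [DecidableEq b.support] (T : SimpleTriples b)

local notation "S" => SAlg K (sMat b)

local notation "C" => sMat b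

/-- The operators of the diagonal generators. -/
abbrev dOp (i : b.support) : Module.End K S := toEnd K S S (gH K C i)

/-- Weight vectors of the presented algebra. -/
abbrev GW (μ : Dual K H) (x : S) : Prop := Eig b (dOp b) μ x

lemma gw_gH (i : b.support) : GW b 0 (gH K C i) := fun k => by
  rw [toEnd_apply_apply, (gen_rel K C).hh, LinearMap.zero_apply, zero_smul]

lemma gw_eword (i : b.support) (l : List b.support) :
    GW b (wordWt b (i :: l)) (eword K C i l) := fun k => by
  rw [toEnd_apply_apply, lie_gH_eword, wordWt_crt, Int.cast_smul_eq_zsmul]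

lemma gw_theta {μ : Dual K H} {x : S} (hx : GW b μ x) : GW b (-μ) (theta K C x) := fun k => by
  have h := congrArg (theta K C) (hx k)
  rw [toEnd_apply_apply, LieHom.map_lie, theta_gH, neg_lie, map_smul, neg_eq_iff_eq_neg] at h
  rw [toEnd_apply_apply, h, LinearMap.neg_apply, neg_smul]

lemma gw_lie_gF {μ : Dual K H} {x : S} (hx : GW b μ x) (i : b.support) :
    GW b (μ - rt i.1) ⁅gF K C i, x⁆ := fun k => by
  have h := hx k
  rw [toEnd_apply_apply] at h ⊢
  rw [leibniz_lie, (gen_rel K C).hf, h, neg_lie, zsmul_lie, lie_smul, LinearMap.sub_apply,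
    rt_crt_eq_sMat, sub_smul, Int.cast_smul_eq_zsmul]
  abel

/-- The index set of the spanning family of weight vectors. -/
abbrev SIdx : Type _ :=
  b.support ⊕ (b.support × List b.support) ⊕ (b.support × List b.support)

/-- The spanning family of weight vectors. -/
def sVec : SIdx b → S :=
  Sum.elim (gH K C) (Sum.elim (fun p => eword K C p.1 p.2)
    (fun p => theta K C (eword K C p.1 p.2)))

/-- Their weights. -/
def sWt : SIdx b → Dual K H :=
  Sum.elim (fun _ => 0) (Sum.elim (fun p => wordWt b (p.1 :: p.2))
    (fun p => -wordWt b (p.1 :: p.2)))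

lemma gw_sVec (k : SIdx b) : GW b (sWt b k) (sVec b k) := by
  rcases k with i | p | p
  · exact gw_gH b i
  · exact gw_eword b p.1 p.2
  · exact gw_theta b (gw_eword b p.1 p.2)

lemma span_sVec : Submodule.span K (Set.range (sVec b)) = ⊤ := by
  rw [eq_top_iff, ← triPart_eq_top K C]
  refine sup_le (sup_le (Submodule.span_mono ?_) (Submodule.span_mono ?_)) ?_
  · rintro _ ⟨i, rfl⟩
    exact ⟨Sum.inl i, rfl⟩
  · rintro _ ⟨p, rfl⟩
    exact ⟨Sum.inr (Sum.inl p), rfl⟩
  · rw [ePart, Submodule.map_span]
    refine Submodule.span_mono ?_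
    rintro _ ⟨_, ⟨p, rfl⟩, rfl⟩
    exact ⟨Sum.inr (Sum.inr p), rfl⟩

lemma mem_span_of_gw {μ : Dual K H} {x : S} (hx : GW b μ x) :
    x ∈ Submodule.span K (sVec b '' {k | sWt b k = μ}) :=
  mem_span_of_eig b (dOp b) _ _ (gw_sVec b) hx (by rw [span_sVec]; trivial)

lemma exists_sWt_of_gw {μ : Dual K H} {x : S} (hx : GW b μ x) (h : x ≠ 0) :
    ∃ k, sWt b k = μ := by
  by_contra hcon
  push Not at hcon
  refine h (eq_zero_of_eig b (dOp b) _ _ (gw_sVec b) hx ?_ hcon)
  rw [span_sVec]
  trivial

/-- A word of equal letters of length at least two vanishes. -/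
lemma eword_eq_zero {i : b.support} :
    ∀ {l : List b.support}, (∀ j ∈ l, j = i) → l ≠ [] → eword K C i l = 0 := by
  intro l
  induction l with
  | nil => exact fun _ h => absurd rfl h
  | cons j l ih =>
    intro hl _
    obtain rfl := hl j List.mem_cons_self
    rcases eq_or_ne l [] with rfl | hne
    · exact lie_self _
    · rw [eword, ih (fun k hk => hl k (List.mem_cons_of_mem _ hk)) hne, lie_zero]

/-- The generators form an `sl₂` triple in the presented algebra. -/
lemma gen_triple (i : b.support) : IsSl2Triple (gH K C i) (gE K C i) (gF K C i) where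
  h_ne_zero h := by
    refine (isTriple i.1).h_ne_zero ?_
    rw [← toL_gH b (stdTriples b) i, h, map_zero]
  lie_e_f := (gen_rel K C).ef i
  lie_h_e_nsmul := by
    rw [(gen_rel K C).he, sMat_diag, ofNat_smul_eq_nsmul]
  lie_h_f_nsmul := by
    rw [(gen_rel K C).hf, sMat_diag, ofNat_smul_eq_nsmul]

lemma pow_gF_gw {μ : Dual K H} {x : S} (hx : GW b μ x) (i : b.support) (m : ℕ) :
    GW b (μ - (m : K) • rt i.1) ((toEnd K S S (gF K C i) ^ m) x) := by
  induction m with
  | zero => simpa using hx
  | succ m ih =>
    rw [toEnd_pow_succ_apply]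
    have h := gw_lie_gF b ih i
    rwa [show μ - (m : K) • rt i.1 - rt i.1 = μ - ((m + 1 : ℕ) : K) • rt i.1 by
      push_cast; module] at h

/-- A homomorphism nonzero on every `gE i` is injective on positive weight spaces. -/
theorem eq_zero_of_pos {M : Type*} [LieRing M] [LieAlgebra K M] (ψ : S →ₗ⁅K⁆ M)
    (hψ : ∀ i, ψ (gE K C i) ≠ 0) :
    ∀ (n : ℕ) (μ : Dual K H) (x : S), 0 < n → μ ∈ posCone b → μ (heightElt b) = (n : K) →
      GW b μ x → ψ x = 0 → x = 0 := by
  intro n
  induction n using Nat.strong_induction_on with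
  | _ n ih =>
  intro μ x hn hμ hμh hx hψx
  by_contra hx0
  have hμ0 : μ ≠ 0 := by
    rintro rfl
    rw [LinearMap.zero_apply, eq_comm, Nat.cast_eq_zero] at hμh
    omega
  -- the family members of weight `μ` are words
  have hword : ∀ k, sWt b k = μ → ∃ p : b.support × List b.support, k = Sum.inr (Sum.inl p) := by
    rintro (i | p | p) hk
    · exact absurd hk.symm hμ0
    · exact ⟨p, rfl⟩
    · exfalso
      have h := LinearMap.congr_fun hk (heightElt b)
      rw [show sWt b (Sum.inr (Sum.inr p)) = -wordWt b (p.1 :: p.2) from rfl, LinearMap.neg_apply,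
        wordWt_heightElt, hμh, neg_eq_iff_add_eq_zero, ← Nat.cast_add, Nat.cast_eq_zero] at h
      omega
  by_cases hsimple : ∃ i : b.support, μ = rt i.1
  · obtain ⟨i, rfl⟩ := hsimple
    have hsub : sVec b '' {k | sWt b k = rt i.1} ⊆ {gE K C i} := by
      rintro _ ⟨k, hk, rfl⟩
      obtain ⟨⟨j, l⟩, rfl⟩ := hword k hk
      change wordWt b (j :: l) = rt i.1 at hk
      have h := LinearMap.congr_fun hk (heightElt b)
      rw [wordWt_heightElt, apply_heightElt_of_mem b i.2, List.length_cons, Nat.cast_eq_one,
        Nat.add_eq_right, List.length_eq_zero_iff] at h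
      subst h
      rw [wordWt_cons, show wordWt b [] = 0 from rfl, add_zero] at hk
      obtain rfl : j = i := Subtype.ext (eq_of_rt_eq hk)
      exact rfl
    obtain ⟨c, rfl⟩ := Submodule.mem_span_singleton.1
      (Submodule.span_mono hsub (mem_span_of_gw b hx))
    rw [map_smul, smul_eq_zero] at hψx
    rcases hψx with rfl | h
    · exact hx0 (zero_smul _ _)
    · exact hψ i h
  push Not at hsimple
  obtain ⟨i, m, hm, hmi⟩ : ∃ (i : b.support) (m : ℕ), 0 < m ∧ μ (crt i.1) = (m : K) := by
    by_contra hcon
    push Not at hcon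
    have hdom : IsDominantIntegral b (-μ) := fun α hα => by
      obtain ⟨z, hz⟩ := isWeightLattice_of_mem_posCone b hμ α
      obtain ⟨k, rfl | rfl⟩ := Int.eq_nat_or_neg z
      · rcases Nat.eq_zero_or_pos k with rfl | hk
        · exact ⟨0, by rw [LinearMap.neg_apply, hz]; simp⟩
        · exact absurd (hz.trans (Int.cast_natCast k)) (hcon ⟨α, hα⟩ k hk)
      · exact ⟨k, by rw [LinearMap.neg_apply, hz]; simp⟩
    obtain ⟨q, hq, hqe⟩ := isNonnegRat_kform_of_mem_posCone b hdom hμ
    refine hμ0 (eq_zero_of_kform_self b (isWeightLattice_of_mem_posCone b hμ) hq ?_)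
    rw [hqe, show (-μ : Dual K H) = (-1 : K) • μ by module, kform_smul_left]
    ring
  have hxh : ⁅gH K C i, x⁆ = (m : K) • x := by rw [← hmi]; exact hx i
  have hy : (toEnd K S S (gF K C i) ^ m) x ≠ 0 := fun h0 => by
    obtain ⟨N, hN⟩ := locally_nilpotent_gE K C i x
    exact hx0 (eq_zero_of_pow_f_eq_zero (gen_triple b i) N m x hxh hN h0)
  have hyw := pow_gF_gw b hx i m
  have hψy : ψ ((toEnd K S S (gF K C i) ^ m) x) = 0 := by
    rw [map_toEnd_pow, hψx, map_zero]
  obtain ⟨k₁, hk₁⟩ := exists_sWt_of_gw b hx hx0
  obtain ⟨⟨j, l⟩, rfl⟩ := hword k₁ hk₁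
  change wordWt b (j :: l) = μ at hk₁
  obtain ⟨k, hk⟩ := exists_sWt_of_gw b hyw hy
  -- the reflected weight is a multiple of a simple root away from a word
  have hmix : ∀ p : List b.support, wordWt b p = (m : K) • rt i.1 - μ → False := fun p hp => by
    have hall : ∀ q : List b.support, wordWt b q = μ → ∀ a ∈ q, a = i := fun q hq a ha =>
      eq_of_wordWt_add b (p := p) (m := (m : K)) (by rw [hq, hp]; module) ha
    have hsub : sVec b '' {k | sWt b k = μ} ⊆ {(0 : S)} := by
      rintro _ ⟨k, hk, rfl⟩
      obtain ⟨⟨a, l'⟩, rfl⟩ := hword k hk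
      change wordWt b (a :: l') = μ at hk
      have h := hall _ hk
      obtain rfl : a = i := h a List.mem_cons_self
      rcases eq_or_ne l' [] with rfl | hne
      · rw [wordWt_cons, show wordWt b [] = 0 from rfl, add_zero] at hk
        exact absurd hk.symm (hsimple a)
      · exact eword_eq_zero b (fun c hc => h c (List.mem_cons_of_mem _ hc)) hne
    have h2 := Submodule.span_mono hsub (mem_span_of_gw b hx)
    rw [Submodule.span_zero_singleton, Submodule.mem_bot] at h2
    exact hx0 h2
  rcases k with a | p | p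
  · change (0 : Dual K H) = _ at hk
    exact hmix [] (by rw [show wordWt b [] = 0 from rfl, eq_comm, ← neg_eq_zero, neg_sub, ← hk])
  · change wordWt b (p.1 :: p.2) = _ at hk
    have h := LinearMap.congr_fun hk (heightElt b)
    rw [wordWt_heightElt, LinearMap.sub_apply, LinearMap.smul_apply,
      apply_heightElt_of_mem b i.2, smul_eq_mul, mul_one, hμh, eq_sub_iff_add_eq, ← Nat.cast_add,
      Nat.cast_inj, List.length_cons] at h
    exact hy (ih (p.2.length + 1) (by omega) _ _ (by omega) (wordWt_mem_posCone b (p.1 :: p.2))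
      (wordWt_heightElt b _) (hk ▸ hyw) hψy)
  · change -wordWt b (p.1 :: p.2) = _ at hk
    exact hmix (p.1 :: p.2) (by rw [← neg_inj, hk, neg_sub])

/-- The homomorphism onto `L` has trivial kernel. -/
theorem toL_injective : Function.Injective (toL b T) := by
  classical
  rw [injective_iff_map_eq_zero]
  have hweight : ∀ k x, GW b (sWt b k) x → toL b T x = 0 → x = 0 := by
    rintro (i | p | p) x hx hφ
    · have hsub : sVec b '' {k | sWt b k = 0} ⊆ Set.range (gH K C) := by
        rintro _ ⟨k, hk, rfl⟩
        rcases k with j | q | q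
        · exact ⟨j, rfl⟩
        · exfalso
          have h : wordWt b (q.1 :: q.2) (heightElt b) = 0 := LinearMap.congr_fun hk (heightElt b)
          rw [wordWt_heightElt, Nat.cast_eq_zero] at h
          simp at h
        · exfalso
          have h : -wordWt b (q.1 :: q.2) (heightElt b) = 0 :=
            LinearMap.congr_fun hk (heightElt b)
          rw [wordWt_heightElt, neg_eq_zero, Nat.cast_eq_zero] at h
          simp at h
      obtain ⟨c, rfl⟩ := (Submodule.mem_span_range_iff_exists_fun K).1
        (Submodule.span_mono hsub (mem_span_of_gw b hx))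
      rw [map_sum] at hφ
      simp only [map_smul, toL_gH] at hφ
      have hc := Fintype.linearIndependent_iff.1 (linearIndependent_crt b) c hφ
      simp [hc]
    · exact eq_zero_of_pos b (toL b T)
        (fun i h => (T.triple i).e_ne_zero ((toL_gE b T i).symm.trans h)) _ _ x
        (Nat.succ_pos _) (wordWt_mem_posCone b _) (wordWt_heightElt b (p.1 :: p.2)) hx hφ
    · have h := gw_theta b hx
      rw [show -sWt b (Sum.inr (Sum.inr p)) = wordWt b (p.1 :: p.2) from neg_neg _] at h
      have h2 := eq_zero_of_pos b ((toL b T).comp (theta K C))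
        (fun i h => (T.triple i).f_ne_zero (by
          rwa [LieHom.comp_apply, theta_gE, map_neg, toL_gF, neg_eq_zero] at h)) _ _
        (theta K C x) (Nat.succ_pos _) (wordWt_mem_posCone b _)
        (wordWt_heightElt b (p.1 :: p.2)) h (by rw [LieHom.comp_apply, theta_theta, hφ])
      rw [← theta_theta K C x, h2, map_zero]
  intro x hx
  obtain ⟨c, rfl⟩ := Finsupp.mem_span_range_iff_exists_finsupp.1
    (show x ∈ Submodule.span K (Set.range (sVec b)) by rw [span_sVec]; trivial)
  rw [Finsupp.sum] at hx ⊢
  rw [← Finset.sum_fiberwise_of_maps_to (t := c.support.image (sWt b)) (g := sWt b)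
    (fun k hk => Finset.mem_image_of_mem _ hk)] at hx ⊢
  refine Finset.sum_eq_zero fun ν hν => ?_
  obtain ⟨k₀, hk₀, rfl⟩ := Finset.mem_image.1 hν
  set part : Dual K H → S := fun ν =>
    ∑ k ∈ c.support.filter (fun k => sWt b k = ν), c k • sVec b k with hpart
  have hgw : ∀ ν, GW b ν (part ν) := fun ν i => by
    rw [hpart, map_sum, Finset.smul_sum]
    refine Finset.sum_congr rfl fun k hk => ?_
    rw [map_smul, gw_sVec b k i, (Finset.mem_filter.1 hk).2, smul_comm]
  refine hweight k₀ (part (sWt b k₀)) (hgw _) ?_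
  let D : b.support → Module.End K L := fun i => toEnd K L L (crt i.1 : L)
  have heig : ∀ ν, Eig b D ν (toL b T (part ν)) := fun ν i => by
    have h := congrArg (toL b T) (hgw ν i)
    rw [toEnd_apply_apply, LieHom.map_lie, toL_gH, map_smul] at h
    exact h
  refine eq_zero_of_eig b D
    (fun ν : {ν // ν ∈ (c.support.image (sWt b)).erase (sWt b k₀)} => toL b T (part ν.1))
    (fun ν => ν.1) (fun ν => heig _) (heig _) ?_ fun ν => Finset.ne_of_mem_erase ν.2
  rw [map_sum, ← Finset.add_sum_erase _ _ hν, add_eq_zero_iff_eq_neg] at hx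
  rw [show toL b T (part (sWt b k₀)) = _ from hx]
  exact neg_mem (Submodule.sum_mem _ fun ν hν' => Submodule.subset_span ⟨⟨ν, hν'⟩, rfl⟩)

/-- Serre's theorem: the presented algebra is `L`. -/
def serreEquiv : S ≃ₗ⁅K⁆ L :=
  LieEquiv.ofBijective (toL b T) ⟨toL_injective b T, toL_surjective b T⟩

lemma serreEquiv_apply (x : S) : serreEquiv b T x = toL b T x := rfl

lemma cartan_eq_span :
    H.toSubmodule = Submodule.span K (Set.range fun i : b.support => (crt i.1 : L)) :=
  (chevalley b (stdTriples b)).coe_cartan_eq_span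

section Iso

variable {L' : Type*} [LieRing L'] [LieAlgebra K L'] [IsKilling K L'] [FiniteDimensional K L']
  {H' : LieSubalgebra K L'} [H'.IsCartanSubalgebra] [IsTriangularizable K H' L']
  (b' : (rootSystem H').Base) [DecidableEq b'.support] (T' : SimpleTriples b')

/-- Equal Cartan matrices give isomorphic Lie algebras. -/
def isoEquiv (σ : b.support ≃ b'.support)
    (hσ : ∀ i j, b'.cartanMatrix (σ i) (σ j) = b.cartanMatrix i j) : L ≃ₗ⁅K⁆ L' :=
  (serreEquiv b T).symm.trans ((sreindex K σ fun i j => hσ j i).trans (serreEquiv b' T'))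

lemma isoEquiv_gen (σ : b.support ≃ b'.support)
    (hσ : ∀ i j, b'.cartanMatrix (σ i) (σ j) = b.cartanMatrix i j) (i : b.support) :
    isoEquiv b T b' T' σ hσ (T.e i) = T'.e (σ i) ∧ isoEquiv b T b' T' σ hσ (T.f i) = T'.f (σ i) ∧
      isoEquiv b T b' T' σ hσ (crt i.1 : L) = (crt (σ i).1 : L') := by
  refine ⟨?_, ?_, ?_⟩
  · rw [← toL_gE b T i, ← serreEquiv_apply, isoEquiv, LieEquiv.trans_apply,
      LieEquiv.symm_apply_apply, LieEquiv.trans_apply, sreindex_gE, serreEquiv_apply, toL_gE]
  · rw [← toL_gF b T i, ← serreEquiv_apply, isoEquiv, LieEquiv.trans_apply,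
      LieEquiv.symm_apply_apply, LieEquiv.trans_apply, sreindex_gF, serreEquiv_apply, toL_gF]
  · rw [← toL_gH b T i, ← serreEquiv_apply, isoEquiv, LieEquiv.trans_apply,
      LieEquiv.symm_apply_apply, LieEquiv.trans_apply, sreindex_gH, serreEquiv_apply, toL_gH]

lemma isoEquiv_map_cartan (σ : b.support ≃ b'.support)
    (hσ : ∀ i j, b'.cartanMatrix (σ i) (σ j) = b.cartanMatrix i j) :
    H.toSubmodule.map (isoEquiv b T b' T' σ hσ).toLinearEquiv.toLinearMap = H'.toSubmodule := by
  rw [cartan_eq_span b, cartan_eq_span b', Submodule.map_span, ← Set.range_comp]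
  refine congrArg _ ((EquivLike.range_comp _ σ).symm.trans ?_).symm
  exact congrArg Set.range (funext fun i => ((isoEquiv_gen b T b' T' σ hσ i).2.2).symm)

end Iso

end FA.SerreTheorem
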