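import Fermat.Agent.HighestWeight.Sl2

/-!
# The Lie algebra presented by the Serre relations

Its universal property, the involution exchanging the two families of generators, the spanning of
the algebra by words in one family, the diagonal and words in the other, and the local nilpotence of
the adjoint action of the generators.
-/

set_option autoImplicit false
set_option linter.unusedSectionVars false

noncomputable section

namespace FA.SerreTheorem

open CartanMatrix LieModule Module FA.HighestWeight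

attribute [local instance 100] LieRing.ofAssociativeRing

variable {K : Type*} [Field K] {ι : Type*} [DecidableEq ι]

/-- Elements satisfying the Serre relations. -/
structure SerreRel {L : Type*} [LieRing L] [LieAlgebra K L] (C : Matrix ι ι ℤ) (h e f : ι → L) :
    Prop where
  hh : ∀ i j, ⁅h i, h j⁆ = 0
  ef : ∀ i, ⁅e i, f i⁆ = h i
  ef_ne : ∀ i j, i ≠ j → ⁅e i, f j⁆ = 0
  he : ∀ i j, ⁅h i, e j⁆ = C i j • e j
  hf : ∀ i j, ⁅h i, f j⁆ = -(C i j • f j)
  adE : ∀ i j, (toEnd K L L (e i) ^ (-C i j).toNat) ⁅e i, e j⁆ = 0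
  adF : ∀ i j, (toEnd K L L (f i) ^ (-C i j).toNat) ⁅f i, f j⁆ = 0

lemma map_toEnd_pow {L L' : Type*} [LieRing L] [LieAlgebra K L] [LieRing L'] [LieAlgebra K L']
    (φ : L →ₗ⁅K⁆ L') (x y : L) (n : ℕ) :
    φ ((toEnd K L L x ^ n) y) = (toEnd K L' L' (φ x) ^ n) (φ y) := by
  induction n with
  | zero => simp
  | succ n ih => rw [toEnd_pow_succ_apply, toEnd_pow_succ_apply, LieHom.map_lie, ih]

variable (K) (C : Matrix ι ι ℤ)

/-- The presented algebra. -/
abbrev SAlg (K : Type*) [Field K] {ι : Type*} [DecidableEq ι] (C : Matrix ι ι ℤ) : Type _ :=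
  Matrix.ToLieAlgebra K C

/-- The quotient map from the free Lie algebra. -/
def qmk : FreeLieAlgebra K (Generators ι) →ₗ⁅K⁆ SAlg K C where
  toFun := LieSubmodule.Quotient.mk (N := Relations.toIdeal K C)
  map_add' _ _ := rfl
  map_smul' _ _ := rfl
  map_lie' := fun {x y} => LieSubmodule.Quotient.mk_bracket (I := Relations.toIdeal K C) x y

lemma qmk_surjective : Function.Surjective (qmk K C) := fun y => Quot.exists_rep y

lemma qmk_eq_zero {x : FreeLieAlgebra K (Generators ι)} :
    qmk K C x = 0 ↔ x ∈ Relations.toIdeal K C :=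
  LieSubmodule.Quotient.mk_eq_zero' (N := Relations.toIdeal K C)

/-- The generator `H i`. -/
def gH (i : ι) : SAlg K C := qmk K C (FreeLieAlgebra.of K (Generators.H i))

/-- The generator `E i`. -/
def gE (i : ι) : SAlg K C := qmk K C (FreeLieAlgebra.of K (Generators.E i))

/-- The generator `F i`. -/
def gF (i : ι) : SAlg K C := qmk K C (FreeLieAlgebra.of K (Generators.F i))

lemma qmk_rel {x : FreeLieAlgebra K (Generators ι)} (hx : x ∈ Relations.toSet K C) : qmk K C x = 0 :=
  (qmk_eq_zero K C).2 (LieSubmodule.subset_lieSpan hx)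

/-- The generators satisfy the relations. -/
theorem gen_rel : SerreRel (K := K) C (gH K C) (gE K C) (gF K C) where
  hh i j := by
    have h := qmk_rel K C (x := Relations.HH K (i, j)) (Or.inl (Or.inl (Or.inl (Or.inl (Or.inl ⟨(i, j), rfl⟩)))))
    simpa [Relations.HH, gH] using h
  ef i := by
    have h := qmk_rel K C (x := Relations.EF K (i, i)) (Or.inl (Or.inl (Or.inl (Or.inl (Or.inr ⟨(i, i), rfl⟩)))))
    simp only [Relations.EF, Function.uncurry_apply_pair, if_true, map_sub, LieHom.map_lie,
      Function.comp_apply, sub_eq_zero] at h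
    exact h
  ef_ne i j hij := by
    have h := qmk_rel K C (x := Relations.EF K (i, j)) (Or.inl (Or.inl (Or.inl (Or.inl (Or.inr ⟨(i, j), rfl⟩)))))
    simpa [Relations.EF, hij, gE, gF] using h
  he i j := by
    have h := qmk_rel K C (x := Relations.HE K C (i, j)) (Or.inl (Or.inl (Or.inl (Or.inr ⟨(i, j), rfl⟩))))
    simp only [Relations.HE, Function.uncurry_apply_pair, map_sub, map_zsmul, LieHom.map_lie,
      Function.comp_apply, sub_eq_zero] at h
    exact h
  hf i j := by
    have h := qmk_rel K C (x := Relations.HF K C (i, j)) (Or.inl (Or.inl (Or.inr ⟨(i, j), rfl⟩)))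
    simp only [Relations.HF, Function.uncurry_apply_pair, map_add, map_zsmul, LieHom.map_lie,
      Function.comp_apply, add_eq_zero_iff_eq_neg] at h
    exact h
  adE i j := by
    have h := qmk_rel K C (x := Relations.adE K C (i, j)) (Or.inl (Or.inr ⟨(i, j), rfl⟩))
    simp only [Relations.adE, Function.uncurry_apply_pair, Function.comp_apply] at h
    rw [show qmk K C ((LieAlgebra.ad K (FreeLieAlgebra K (Generators ι))
        (FreeLieAlgebra.of K (Generators.E i)) ^ (-C i j).toNat)
        ⁅FreeLieAlgebra.of K (Generators.E i), FreeLieAlgebra.of K (Generators.E j)⁆) = _ from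
      map_toEnd_pow (qmk K C) _ _ _, LieHom.map_lie] at h
    exact h
  adF i j := by
    have h := qmk_rel K C (x := Relations.adF K C (i, j)) (Or.inr ⟨(i, j), rfl⟩)
    simp only [Relations.adF, Function.uncurry_apply_pair, Function.comp_apply] at h
    rw [show qmk K C ((LieAlgebra.ad K (FreeLieAlgebra K (Generators ι))
        (FreeLieAlgebra.of K (Generators.F i)) ^ (-C i j).toNat)
        ⁅FreeLieAlgebra.of K (Generators.F i), FreeLieAlgebra.of K (Generators.F j)⁆) = _ from
      map_toEnd_pow (qmk K C) _ _ _, LieHom.map_lie] at h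
    exact h

variable {K C} {L : Type*} [LieRing L] [LieAlgebra K L] {h e f : ι → L}

/-- The value of a homomorphism on the free generators. -/
def genVal (h e f : ι → L) : Generators ι → L
  | .H i => h i
  | .E i => e i
  | .F i => f i

lemma toIdeal_le_ker (R : SerreRel (K := K) C h e f) :
    Relations.toIdeal K C ≤ (FreeLieAlgebra.lift K (genVal h e f)).ker := by
  refine LieSubmodule.lieSpan_le.2 ?_
  rintro x (((((⟨⟨i, j⟩, rfl⟩ | ⟨⟨i, j⟩, rfl⟩) | ⟨⟨i, j⟩, rfl⟩) | ⟨⟨i, j⟩, rfl⟩) | ⟨⟨i, j⟩, rfl⟩) |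
    ⟨⟨i, j⟩, rfl⟩) <;> simp only [SetLike.mem_coe, LieHom.mem_ker]
  · simp [Relations.HH, genVal, R.hh i j]
  · by_cases hij : i = j
    · subst hij
      simp [Relations.EF, genVal, R.ef i]
    · simp [Relations.EF, genVal, hij, R.ef_ne i j hij]
  · simp [Relations.HE, genVal, R.he i j]
  · simp [Relations.HF, genVal, R.hf i j]
  · simp only [Relations.adE, Function.uncurry_apply_pair, Function.comp_apply]
    refine (map_toEnd_pow _ _ _ _).trans ?_
    simpa [genVal] using R.adE i j
  · simp only [Relations.adF, Function.uncurry_apply_pair, Function.comp_apply]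
    refine (map_toEnd_pow _ _ _ _).trans ?_
    simpa [genVal] using R.adF i j

/-- The universal property. -/
def slift (R : SerreRel (K := K) C h e f) : SAlg K C →ₗ⁅K⁆ L where
  toFun := (Relations.toIdeal K C).toSubmodule.liftQ
    (FreeLieAlgebra.lift K (genVal h e f)).toLinearMap fun x hx =>
      LieHom.mem_ker.1 (toIdeal_le_ker R hx)
  map_add' x y := map_add ((Relations.toIdeal K C).toSubmodule.liftQ _ _) x y
  map_smul' c x := map_smul ((Relations.toIdeal K C).toSubmodule.liftQ _ _) c x
  map_lie' := fun {x y} => by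
    obtain ⟨x, rfl⟩ := qmk_surjective K C x
    obtain ⟨y, rfl⟩ := qmk_surjective K C y
    rw [← LieHom.map_lie]
    exact (FreeLieAlgebra.lift K (genVal h e f)).map_lie x y

lemma slift_qmk (R : SerreRel (K := K) C h e f) (x : FreeLieAlgebra K (Generators ι)) :
    slift R (qmk K C x) = FreeLieAlgebra.lift K (genVal h e f) x := rfl

lemma slift_gH (R : SerreRel (K := K) C h e f) (i : ι) : slift R (gH K C i) = h i := by
  rw [gH, slift_qmk, FreeLieAlgebra.lift_of_apply]; rfl

lemma slift_gE (R : SerreRel (K := K) C h e f) (i : ι) : slift R (gE K C i) = e i := by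
  rw [gE, slift_qmk, FreeLieAlgebra.lift_of_apply]; rfl

lemma slift_gF (R : SerreRel (K := K) C h e f) (i : ι) : slift R (gF K C i) = f i := by
  rw [gF, slift_qmk, FreeLieAlgebra.lift_of_apply]; rfl

/-- Homomorphisms agreeing on the generators agree. -/
lemma salg_hom_ext {φ ψ : SAlg K C →ₗ⁅K⁆ L} (hE : ∀ i, φ (gE K C i) = ψ (gE K C i))
    (hF : ∀ i, φ (gF K C i) = ψ (gF K C i)) : φ = ψ := by
  ext x
  obtain ⟨x, rfl⟩ := qmk_surjective K C x
  have key : φ.comp (qmk K C) = ψ.comp (qmk K C) := FreeLieAlgebra.hom_ext fun g => by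
    rcases g with i | i | i
    · show φ (gH K C i) = ψ (gH K C i)
      rw [← (gen_rel K C).ef i, LieHom.map_lie, LieHom.map_lie, hE, hF]
    · exact hE i
    · exact hF i
  exact LieHom.congr_fun key x

/-- A subalgebra containing the generators is everything. -/
lemma eq_top_of_gen_mem (S : LieSubalgebra K (SAlg K C)) (hE : ∀ i, gE K C i ∈ S)
    (hF : ∀ i, gF K C i ∈ S) : S = ⊤ := by
  have hH : ∀ i, gH K C i ∈ S := fun i => by
    rw [← (gen_rel K C).ef i]; exact S.lie_mem (hE i) (hF i)
  have R : SerreRel (K := K) C (fun i => (⟨gH K C i, hH i⟩ : S)) (fun i => ⟨gE K C i, hE i⟩)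
      (fun i => ⟨gF K C i, hF i⟩) := by
    have hp : ∀ (x y : S) (n : ℕ), ((toEnd K S S x ^ n) y : SAlg K C) =
        (toEnd K (SAlg K C) (SAlg K C) (x : SAlg K C) ^ n) (y : SAlg K C) := fun x y n =>
      map_toEnd_pow S.incl x y n
    exact
      { hh := fun i j => Subtype.ext ((gen_rel K C).hh i j)
        ef := fun i => Subtype.ext ((gen_rel K C).ef i)
        ef_ne := fun i j hij => Subtype.ext ((gen_rel K C).ef_ne i j hij)
        he := fun i j => Subtype.ext (by simpa using (gen_rel K C).he i j)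
        hf := fun i j => Subtype.ext (by simpa using (gen_rel K C).hf i j)
        adE := fun i j => Subtype.ext ((hp _ _ _).trans ((gen_rel K C).adE i j))
        adF := fun i j => Subtype.ext ((hp _ _ _).trans ((gen_rel K C).adF i j)) }
  have hid : S.incl.comp (slift R) = (LieHom.id : SAlg K C →ₗ⁅K⁆ SAlg K C) :=
    salg_hom_ext (fun i => congrArg Subtype.val (slift_gE R i))
      (fun i => congrArg Subtype.val (slift_gF R i))
  rw [eq_top_iff]
  intro x _
  have hx := LieHom.congr_fun hid x
  change S.incl (slift R x) = x at hx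
  rw [← hx]
  exact (slift R x).2

lemma toEnd_neg_pow (x y : L) (n : ℕ) :
    (toEnd K L L (-x) ^ n) y = (-1 : K) ^ n • (toEnd K L L x ^ n) y := by
  induction n with
  | zero => simp
  | succ n ih =>
    rw [toEnd_pow_succ_apply, ih, lie_smul, neg_lie, ← toEnd_pow_succ_apply, pow_succ' (-1 : K),
      mul_smul, neg_one_smul, smul_neg]

variable (K C)

theorem theta_rel :
    SerreRel (K := K) C (fun i => -gH K C i) (fun i => -gF K C i) (fun i => -gE K C i) where
  hh i j := by simp [(gen_rel K C).hh i j]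
  ef i := by rw [neg_lie, lie_neg, neg_neg, ← lie_skew, (gen_rel K C).ef i]
  ef_ne i j hij := by rw [neg_lie, lie_neg, neg_neg, ← lie_skew, (gen_rel K C).ef_ne j i (Ne.symm hij), neg_zero]
  he i j := by rw [neg_lie, lie_neg, neg_neg, (gen_rel K C).hf i j, smul_neg]
  hf i j := by rw [neg_lie, lie_neg, neg_neg, (gen_rel K C).he i j, smul_neg, neg_neg]
  adE i j := by rw [toEnd_neg_pow, neg_lie, lie_neg, neg_neg, (gen_rel K C).adF i j, smul_zero]
  adF i j := by rw [toEnd_neg_pow, neg_lie, lie_neg, neg_neg, (gen_rel K C).adE i j, smul_zero]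

/-- The Chevalley involution. -/
def theta : SAlg K C →ₗ⁅K⁆ SAlg K C := slift (theta_rel K C)

lemma theta_gE (i : ι) : theta K C (gE K C i) = -gF K C i := slift_gE _ i

lemma theta_gF (i : ι) : theta K C (gF K C i) = -gE K C i := slift_gF _ i

lemma theta_gH (i : ι) : theta K C (gH K C i) = -gH K C i := slift_gH _ i

lemma theta_theta (x : SAlg K C) : theta K C (theta K C x) = x := by
  have h : (theta K C).comp (theta K C) = LieHom.id := salg_hom_ext
    (fun i => by
      show theta K C (theta K C (gE K C i)) = gE K C i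
      rw [theta_gE, map_neg, theta_gF, neg_neg])
    (fun i => by
      show theta K C (theta K C (gF K C i)) = gF K C i
      rw [theta_gF, map_neg, theta_gE, neg_neg])
  exact LieHom.congr_fun h x

/-- The word `[e_i, [e_j, [… e_l]]]`. -/
def eword : ι → List ι → SAlg K C
  | i, [] => gE K C i
  | i, j :: l => ⁅gE K C i, eword j l⁆

lemma lie_gH_eword (k : ι) (i : ι) (l : List ι) :
    ⁅gH K C k, eword K C i l⁆ = ((i :: l).map (C k)).sum • eword K C i l := by
  induction l generalizing i with
  | nil => simpa [eword] using (gen_rel K C).he k i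
  | cons j l ih =>
    rw [eword, leibniz_lie, (gen_rel K C).he k i, ih j, zsmul_lie, lie_zsmul, ← add_zsmul,
      List.map_cons, List.sum_cons, List.map_cons, List.sum_cons, List.map_cons, List.sum_cons]

/-- The span of the words. -/
def ePart : Submodule K (SAlg K C) := Submodule.span K (Set.range fun p : ι × List ι => eword K C p.1 p.2)

/-- The span of the diagonal generators. -/
def hPart : Submodule K (SAlg K C) := Submodule.span K (Set.range (gH K C))

lemma eword_mem (i : ι) (l : List ι) : eword K C i l ∈ ePart K C :=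
  Submodule.subset_span ⟨(i, l), rfl⟩

lemma gE_lie_hPart {x : SAlg K C} (k : ι) (hx : x ∈ hPart K C) : ⁅gE K C k, x⁆ ∈ ePart K C := by
  induction hx using Submodule.span_induction with
  | mem x hx =>
    obtain ⟨i, rfl⟩ := hx
    rw [← lie_skew, (gen_rel K C).he i k]
    exact neg_mem (zsmul_mem (eword_mem K C k []) _)
  | zero => simp
  | add x y _ _ hx hy => rw [lie_add]; exact add_mem hx hy
  | smul c x _ hx => rw [lie_smul]; exact Submodule.smul_mem _ c hx

lemma gE_lie_ePart {x : SAlg K C} (k : ι) (hx : x ∈ ePart K C) : ⁅gE K C k, x⁆ ∈ ePart K C := by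
  induction hx using Submodule.span_induction with
  | mem x hx =>
    obtain ⟨⟨i, l⟩, rfl⟩ := hx
    exact eword_mem K C k (i :: l)
  | zero => simp
  | add x y _ _ hx hy => rw [lie_add]; exact add_mem hx hy
  | smul c x _ hx => rw [lie_smul]; exact Submodule.smul_mem _ c hx

lemma gF_lie_eword (k i : ι) (l : List ι) :
    ⁅gF K C k, eword K C i l⁆ ∈ hPart K C ⊔ ePart K C := by
  induction l generalizing i with
  | nil =>
    rw [eword, ← lie_skew]
    refine neg_mem ?_
    by_cases h : i = k
    · subst h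
      rw [(gen_rel K C).ef]
      exact Submodule.mem_sup_left (Submodule.subset_span ⟨_, rfl⟩)
    · rw [(gen_rel K C).ef_ne i k h]
      exact zero_mem _
  | cons j l ih =>
    rw [eword, leibniz_lie]
    refine add_mem ?_ ?_
    · rw [← lie_skew (gF K C k) (gE K C i), neg_lie]
      refine neg_mem ?_
      by_cases h : i = k
      · subst h
        rw [(gen_rel K C).ef, lie_gH_eword]
        exact Submodule.mem_sup_right (zsmul_mem (eword_mem K C j l) _)
      · rw [(gen_rel K C).ef_ne i k h, zero_lie]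
        exact zero_mem _
    · obtain ⟨a, ha, c, hc, hac⟩ := Submodule.mem_sup.1 (ih j)
      rw [← hac, lie_add]
      exact Submodule.mem_sup_right (add_mem (gE_lie_hPart K C i ha) (gE_lie_ePart K C i hc))

/-- The three parts together. -/
def triPart : Submodule K (SAlg K C) :=
  hPart K C ⊔ ePart K C ⊔ (ePart K C).map (theta K C).toLinearMap

lemma theta_hPart {x : SAlg K C} (hx : x ∈ hPart K C) : theta K C x ∈ hPart K C := by
  induction hx using Submodule.span_induction with
  | mem x hx =>
    obtain ⟨i, rfl⟩ := hx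
    rw [theta_gH]
    exact neg_mem (Submodule.subset_span ⟨i, rfl⟩)
  | zero => simp
  | add x y _ _ hx hy => rw [map_add]; exact add_mem hx hy
  | smul c x _ hx => rw [map_smul]; exact Submodule.smul_mem _ c hx

lemma theta_triPart {x : SAlg K C} (hx : x ∈ triPart K C) : theta K C x ∈ triPart K C := by
  obtain ⟨y, hy, z, hz, rfl⟩ := Submodule.mem_sup.1 hx
  obtain ⟨a, ha, c, hc, rfl⟩ := Submodule.mem_sup.1 hy
  obtain ⟨w, hw, rfl⟩ := Submodule.mem_map.1 hz
  rw [map_add, map_add, show theta K C ((theta K C).toLinearMap w) = w from theta_theta K C w]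
  exact add_mem (add_mem (Submodule.mem_sup_left (Submodule.mem_sup_left (theta_hPart K C ha)))
    (Submodule.mem_sup_right ⟨c, hc, rfl⟩)) (Submodule.mem_sup_left (Submodule.mem_sup_right hw))

lemma gE_lie_triPart (k : ι) {x : SAlg K C} (hx : x ∈ triPart K C) : ⁅gE K C k, x⁆ ∈ triPart K C := by
  obtain ⟨y, hy, z, hz, rfl⟩ := Submodule.mem_sup.1 hx
  obtain ⟨a, ha, c, hc, rfl⟩ := Submodule.mem_sup.1 hy
  obtain ⟨w, hw, rfl⟩ := Submodule.mem_map.1 hz
  rw [lie_add, lie_add]
  refine add_mem (add_mem (Submodule.mem_sup_left (Submodule.mem_sup_right (gE_lie_hPart K C k ha)))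
    (Submodule.mem_sup_left (Submodule.mem_sup_right (gE_lie_ePart K C k hc)))) ?_
  have hFw : ⁅gF K C k, w⁆ ∈ triPart K C := by
    clear hx hz
    induction hw using Submodule.span_induction with
    | mem w hw =>
      obtain ⟨⟨i, l⟩, rfl⟩ := hw
      exact Submodule.mem_sup_left (gF_lie_eword K C k i l)
    | zero => simp
    | add u v _ _ hu hv => rw [lie_add]; exact add_mem hu hv
    | smul c u _ hu => rw [lie_smul]; exact Submodule.smul_mem _ c hu
  have h := theta_triPart K C hFw
  rw [LieHom.map_lie, theta_gF, neg_lie] at h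
  exact (neg_mem_iff.1 h :)

lemma gF_lie_triPart (k : ι) {x : SAlg K C} (hx : x ∈ triPart K C) : ⁅gF K C k, x⁆ ∈ triPart K C := by
  have h := theta_triPart K C (gE_lie_triPart K C k (theta_triPart K C hx))
  rw [LieHom.map_lie, theta_gE, theta_theta, neg_lie, neg_mem_iff] at h
  exact h

/-- The presented algebra is spanned by the three parts. -/
theorem triPart_eq_top : triPart K C = ⊤ := by
  let T : LieSubalgebra K (SAlg K C) :=
    { carrier := {x | ∀ y ∈ triPart K C, ⁅x, y⁆ ∈ triPart K C}
      add_mem' := fun {a c} ha hc y hy => by rw [add_lie]; exact add_mem (ha y hy) (hc y hy)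
      zero_mem' := fun y _ => by simp
      smul_mem' := fun r a ha y hy => by rw [smul_lie]; exact Submodule.smul_mem _ r (ha y hy)
      lie_mem' := fun {a c} ha hc y hy => by
        rw [lie_lie]; exact sub_mem (ha _ (hc y hy)) (hc _ (ha y hy)) }
  have hT : T = ⊤ := eq_top_of_gen_mem T (fun i _ hy => gE_lie_triPart K C i hy)
    (fun i _ hy => gF_lie_triPart K C i hy)
  let S : LieSubalgebra K (SAlg K C) :=
    { toSubmodule := triPart K C
      lie_mem' := fun {a c} _ hc => (hT ▸ LieSubalgebra.mem_top a : a ∈ T) c hc }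
  have hS : S = ⊤ := eq_top_of_gen_mem S
    (fun i => Submodule.mem_sup_left (Submodule.mem_sup_right (eword_mem K C i [])))
    (fun i => by
      refine Submodule.mem_sup_right ⟨-gE K C i, neg_mem (eword_mem K C i []), ?_⟩
      show theta K C (-gE K C i) = gF K C i
      rw [map_neg, theta_gE, neg_neg])
  rw [eq_top_iff]
  intro x _
  exact (hS ▸ LieSubalgebra.mem_top x : x ∈ S)

/-- The adjoint action of `gE i` is locally nilpotent. -/
theorem locally_nilpotent_gE (i : ι) (y : SAlg K C) :
    ∃ n, (toEnd K (SAlg K C) (SAlg K C) (gE K C i) ^ n) y = 0 := by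
  let S : LieSubalgebra K (SAlg K C) :=
    { carrier := {v | ∃ n, (toEnd K (SAlg K C) (SAlg K C) (gE K C i) ^ n) v = 0}
      add_mem' := by
        rintro u v ⟨a, ha⟩ ⟨c, hc⟩
        exact ⟨max a c, by rw [map_add, toEnd_pow_eq_zero_of_le ha (le_max_left a c),
          toEnd_pow_eq_zero_of_le hc (le_max_right a c), add_zero]⟩
      zero_mem' := ⟨0, map_zero _⟩
      smul_mem' := by
        rintro r v ⟨a, ha⟩
        exact ⟨a, by rw [map_smul, ha, smul_zero]⟩
      lie_mem' := by
        rintro u v ⟨a, ha⟩ ⟨c, hc⟩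
        exact ⟨a + c, pow_lie_eq_zero _ a c u v ha hc⟩ }
  have hS : S = ⊤ := eq_top_of_gen_mem S
    (fun j => ⟨(-C i j).toNat + 1, by rw [toEnd_pow_succ_apply']; exact (gen_rel K C).adE i j⟩)
    (fun j => by
      by_cases h : i = j
      · subst h
        refine ⟨3, ?_⟩
        rw [toEnd_pow_succ_apply', (gen_rel K C).ef, toEnd_pow_succ_apply', ← lie_skew,
          (gen_rel K C).he, pow_one, map_neg, map_zsmul, toEnd_apply_apply, lie_self, smul_zero,
          neg_zero]
      · exact ⟨1, by rw [pow_one, toEnd_apply_apply, (gen_rel K C).ef_ne i j h]⟩)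
  exact (hS ▸ LieSubalgebra.mem_top y : y ∈ S)

/-- The adjoint action of `gF i` is locally nilpotent. -/
theorem locally_nilpotent_gF (i : ι) (y : SAlg K C) :
    ∃ n, (toEnd K (SAlg K C) (SAlg K C) (gF K C i) ^ n) y = 0 := by
  obtain ⟨n, hn⟩ := locally_nilpotent_gE K C i (theta K C y)
  refine ⟨n, ?_⟩
  have h := congrArg (theta K C) hn
  rw [map_toEnd_pow, map_zero, theta_gE, theta_theta, toEnd_neg_pow, smul_eq_zero] at h
  exact h.resolve_left (pow_ne_zero _ (neg_ne_zero.2 one_ne_zero))

section Reindex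

variable {κ : Type*} [DecidableEq κ] {C} {C' : Matrix κ κ ℤ}

lemma rel_reindex (σ : ι ≃ κ) (hσ : ∀ i j, C' (σ i) (σ j) = C i j) :
    SerreRel (K := K) C (fun i => gH K C' (σ i)) (fun i => gE K C' (σ i))
      (fun i => gF K C' (σ i)) where
  hh i j := (gen_rel K C').hh _ _
  ef i := (gen_rel K C').ef _
  ef_ne i j hij := (gen_rel K C').ef_ne _ _ (σ.injective.ne hij)
  he i j := by rw [← hσ]; exact (gen_rel K C').he _ _
  hf i j := by rw [← hσ]; exact (gen_rel K C').hf _ _
  adE i j := by rw [← hσ]; exact (gen_rel K C').adE _ _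
  adF i j := by rw [← hσ]; exact (gen_rel K C').adF _ _

lemma rhom_rhom (σ : ι ≃ κ) (hσ : ∀ i j, C' (σ i) (σ j) = C i j) (τ : κ ≃ ι)
    (hτ : ∀ i j, C (τ i) (τ j) = C' i j) (hi : ∀ i, τ (σ i) = i) (x : SAlg K C) :
    slift (rel_reindex K τ hτ) (slift (rel_reindex K σ hσ) x) = x :=
  LieHom.congr_fun (salg_hom_ext
    (φ := (slift (rel_reindex K τ hτ)).comp (slift (rel_reindex K σ hσ))) (ψ := LieHom.id)
    (fun i => by rw [LieHom.comp_apply, slift_gE, slift_gE, hi]; rfl)
    (fun i => by rw [LieHom.comp_apply, slift_gF, slift_gF, hi]; rfl)) x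

lemma symm_apply_eq (σ : ι ≃ κ) (hσ : ∀ i j, C' (σ i) (σ j) = C i j) (i j : κ) :
    C (σ.symm i) (σ.symm j) = C' i j := by
  rw [← hσ, σ.apply_symm_apply, σ.apply_symm_apply]

/-- Matrices equal up to a reindexing present isomorphic algebras. -/
def sreindex (σ : ι ≃ κ) (hσ : ∀ i j, C' (σ i) (σ j) = C i j) : SAlg K C ≃ₗ⁅K⁆ SAlg K C' where
  __ := slift (rel_reindex K σ hσ)
  invFun := slift (rel_reindex K σ.symm (symm_apply_eq σ hσ))
  left_inv := rhom_rhom K σ hσ σ.symm (symm_apply_eq σ hσ) σ.symm_apply_apply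
  right_inv := rhom_rhom K σ.symm (symm_apply_eq σ hσ) σ hσ σ.apply_symm_apply

lemma sreindex_apply (σ : ι ≃ κ) (hσ : ∀ i j, C' (σ i) (σ j) = C i j) (x : SAlg K C) :
    sreindex K σ hσ x = slift (rel_reindex K σ hσ) x := rfl

lemma sreindex_gE (σ : ι ≃ κ) (hσ : ∀ i j, C' (σ i) (σ j) = C i j) (i : ι) :
    sreindex K σ hσ (gE K C i) = gE K C' (σ i) := slift_gE (rel_reindex K σ hσ) i

lemma sreindex_gF (σ : ι ≃ κ) (hσ : ∀ i j, C' (σ i) (σ j) = C i j) (i : ι) :
    sreindex K σ hσ (gF K C i) = gF K C' (σ i) := slift_gF (rel_reindex K σ hσ) i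

lemma sreindex_gH (σ : ι ≃ κ) (hσ : ∀ i j, C' (σ i) (σ j) = C i j) (i : ι) :
    sreindex K σ hσ (gH K C i) = gH K C' (σ i) := slift_gH (rel_reindex K σ hσ) i

end Reindex

end FA.SerreTheorem
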